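/-
NODAL, layer MOD, node M1: `n`-th roots of Laurent series in characteristic zero
(from `KLB.Mod.exists_pow_eq_laurent'`, binomial series).
-/
import Fermat.Agent.KLB.Mod.Series

set_option autoImplicit false

namespace Fermat.Agent.Nodal

theorem laurentRoot_main {k : Type*} [Field k] [CharZero k] (n : ℕ) (hn : 0 < n)
    (f : LaurentSeries k) (hord : (n : ℤ) ∣ f.order) (hlead : ∃ d : k, d ^ n = f.leadingCoeff) :
    ∃ z : LaurentSeries k, z ^ n = f := by
  by_cases hf : f = 0
  · exact ⟨0, by rw [hf, zero_pow hn.ne']⟩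
  · obtain ⟨d, hd⟩ := hlead
    exact Fermat.Agent.KLB.Mod.exists_pow_eq_laurent' n hn f hf hord d hd

end Fermat.Agent.Nodal
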