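/-
NODAL, layer MOD (architect helper155): the nodal core at `F = FK K (M * q)`, `K` an abstract field with
`[Algebra K Kbar]`, `A₀` ANY discrete valuation ring of `K` of residue characteristic `q` with finite
residue field.  `H := BAD.LevelQ.Mod.lq`, `g₀ := BAD.LevelQ.Mod.gal τ (M * q)`, `L := K((q))`,
`U :=` the orbit of `u`.
-/
import Fermat.Agent.Nodal.LQ.Tor
import Fermat.Agent.Nodal.Riem.Descent
import Fermat.Agent.BAD.LevelQ.Mod.Main
import Fermat.Agent.BAD.LevelQ.Mod.GalVal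
import Fermat.Agent.S33.Cech.Mod.Series
import Fermat.Agent.S17.W.Cusp
import Fermat.Agent.Nodal.Mod.Root

set_option autoImplicit false

noncomputable section

namespace Fermat.Agent.Nodal

open ModularCurve Fermat.Agent.S24 Fermat.Agent.S18 Fermat.Agent.S18.Descent
  Fermat.Agent.BAD.LevelQ Fermat.Agent.BAD.LevelQ.Mod Fermat.Agent.GAL.E

/-- M1 (Mathlib only): `n`-th roots of Laurent series in characteristic zero. -/
theorem exists_pow_eq_laurentSeries {k : Type*} [Field k] [CharZero k] (n : ℕ) (hn : 0 < n)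
    (f : LaurentSeries k) (hord : (n : ℤ) ∣ f.order) (hlead : ∃ d : k, d ^ n = f.leadingCoeff) :
    ∃ z : LaurentSeries k, z ^ n = f :=
  laurentRoot_main n hn f hord hlead

variable {K : Type*} [Field K] [Algebra ℚ K] [Algebra K Kbar]

theorem order_dvd_of_isKum_order_coeffMap {R S : Type*} [CommRing R] [CommRing S] (f : R →+* S)
    (hf : Function.Injective f) (x : LaurentSeries R) : (coeffMap f x).order = x.order := by
  rcases eq_or_ne x 0 with rfl | hx
  · simp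
  have hx' : coeffMap f x ≠ 0 := by
    intro h
    apply hx
    ext k
    apply hf
    rw [← coeffMap_coeff, h]
    simp
  apply le_antisymm
  · apply HahnSeries.order_le_of_coeff_ne_zero
    rw [coeffMap_coeff]
    intro h
    exact hx (HahnSeries.coeff_order_eq_zero.1 (hf (by rw [h, map_zero])))
  · apply HahnSeries.order_le_of_coeff_ne_zero
    intro h
    apply hx'
    apply HahnSeries.coeff_order_eq_zero.1
    rw [coeffMap_coeff, h, map_zero]

/-- M2: the order at the cusp `∞` of a Kummer element. -/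
theorem order_dvd_of_isKum (N n : ℕ) (u : FK K N) (hu : IsKum N n (bcBar N u)) :
    (n : ℤ) ∣ (u : LaurentSeries K).order := by
  rcases eq_or_ne u 0 with rfl | hu0
  · simp
  have h0 : bcBar N u ≠ 0 := (map_ne_zero (bcBar (K := K) N)).2 hu0
  have h1 := hu (S17.W.cusp N)
  rw [S17.W.ord_cusp N _ h0, coe_baseChangeMap,
    order_dvd_of_isKum_order_coeffMap _ (algebraMap K Kbar).injective] at h1
  exact h1

/-- M3: compatibility of the two Galois actions. -/
theorem bcBar_gal (N : ℕ) (τ : K ≃+* K) (s : GQ)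
    (hs : ∀ a, s (algebraMap K Kbar a) = algebraMap K Kbar (τ a)) (u : FK K N) :
    bcBar N (gal τ N u) = galF N s (bcBar N u) := by
  apply Subtype.ext
  rw [coe_galF, coe_baseChangeMap, coe_baseChangeMap, coe_gal, coeffMap_coeffMap,
    coeffMap_coeffMap]
  exact coeffMap_congr (RingHom.ext fun a => (hs a).symm) _

/-- M4: `K` is algebraically closed in `K((q))`. -/
theorem mod_hL (N : ℕ) (z : LaurentSeries K)
    (hz : ((FK K N).val.toRingHom.comp (algebraMap K (FK K N))).IsIntegralElem z) :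
    z ∈ ((FK K N).val.toRingHom.comp (algebraMap K (FK K N))).range := by
  obtain ⟨p, hp, h⟩ := hz
  have e : ((FK K N).val.toRingHom.comp (algebraMap K (FK K N))) =
      algebraMap K (LaurentSeries K) := RingHom.ext fun a => rfl
  rw [e] at h ⊢
  obtain ⟨c, hc⟩ := S33.Cech.exists_const_of_aeval_eq_zero z p hp
    (by rw [Polynomial.aeval_def]; exact h)
  exact ⟨c, hc.symm⟩

theorem exists_orbit_coeff (N : ℕ) (τ : K ≃+* K) (y : FK K N) (i : ℕ) (k : ℤ) :
    (((⇑(gal τ N))^[i] y : FK K N) : LaurentSeries K).coeff k =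
      (⇑τ)^[i] ((y : LaurentSeries K).coeff k) := by
  induction i with
  | zero => rfl
  | succ i ih =>
    rw [Function.iterate_succ_apply', Function.iterate_succ_apply', coe_gal, coeffMap_coeff, ih]
    rfl

/-- M5: the orbit of `u`. -/
theorem exists_orbit (N : ℕ) (τ : K ≃+* K) (hfo : ∃ m, 0 < m ∧ ∀ a, (⇑τ)^[m] a = a) (u : FK K N) :
    ∃ U : Finset (FK K N), u ∈ U ∧ (∀ y ∈ U, gal τ N y ∈ U) ∧
      ∀ y ∈ U, ∃ i : ℕ, y = (⇑(gal τ N))^[i] u := by
  classical
  obtain ⟨m, hm, hτ⟩ := hfo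
  have hper : (⇑(gal τ N))^[m] u = u := by
    apply Subtype.ext
    ext k
    rw [exists_orbit_coeff, hτ]
  refine ⟨(Finset.range m).image fun i => (⇑(gal τ N))^[i] u, ?_, ?_, ?_⟩
  · exact Finset.mem_image.2 ⟨0, Finset.mem_range.2 hm, rfl⟩
  · intro y hy
    obtain ⟨i, hi, rfl⟩ := Finset.mem_image.1 hy
    rw [← Function.iterate_succ_apply' (⇑(gal τ N)) i u]
    rcases Nat.lt_or_ge (i + 1) m with h | h
    · exact Finset.mem_image.2 ⟨i + 1, Finset.mem_range.2 h, rfl⟩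
    · have him : i + 1 = m := le_antisymm (Finset.mem_range.1 hi) h
      rw [show i.succ = m from him, hper]
      exact Finset.mem_image.2 ⟨0, Finset.mem_range.2 hm, rfl⟩
  · intro y hy
    obtain ⟨i, -, rfl⟩ := Finset.mem_image.1 hy
    exact ⟨i, rfl⟩

variable {A₀ : ValuationSubring K} [IsDiscreteValuationRing A₀] {ϖ₀ : K}
  {M q : ℕ} [NeZero M] [NeZero q]

/-- M6: the crossing points are fixed, for an automorphism which is trivial on the residue field and
for the square of the Frobenius. -/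
theorem mod_crossPow (h₀ : IsUnif A₀ ϖ₀) (hq : q.Prime) (hqM : ¬ q ∣ M)
    (hchar : A₀.valuation (q : K) < 1) (hc : M.Coprime q) {γ₀ : K →+* K}
    (hγ : IsFrobInv A₀ q γ₀) (D : BaseData M q) (hD : BeInt D)
    (τ : K ≃+* K) (hτA : A₀.comap (τ : K →+* K) = A₀)
    (hτ : (∀ a ∈ A₀, A₀.valuation (τ a - a) < 1) ∨ (∀ a, γ₀ (γ₀ (τ a)) = a)) :
    CrossPow (ch₁ A₀ (al K M q) (be K M q) (D.xK K)) (VV A₀ hc) (gal τ (M * q)) ∧
      CrossPow (ch₂ A₀ (al K M q) (be K M q) (D.xK K)) (VV A₀ hc) (gal τ (M * q)) := by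
  have H := lq h₀ hq hqM hchar hc hγ D hD
  have hB₁ : ∀ b ∈ ch₁ A₀ (al K M q) (be K M q) (D.xK K),
      gal τ (M * q) b ∈ ch₁ A₀ (al K M q) (be K M q) (D.xK K) :=
    fun b hb => gal_mem_chart hτA (gal_xx τ D) hb
  have hB₂ : ∀ b ∈ ch₂ A₀ (al K M q) (be K M q) (D.xK K),
      gal τ (M * q) b ∈ ch₂ A₀ (al K M q) (be K M q) (D.xK K) :=
    fun b hb => gal_mem_chart hτA (by rw [map_inv₀, gal_xx]) hb
  rcases hτ with h | h
  · have key : ∀ b, b ∈ VV A₀ hc 0 → (VV A₀ hc 0).valuation (gal τ (M * q) b - b) < 1 := by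
      intro b hb
      have h1 := gal_sub_mem_VV h₀ hτA 1
        (fun a ha => by rw [pow_one]; exact CoordAux.div_mem_of_valuation_lt_one h₀ (h a ha)) hc 0 b hb
      rw [pow_one] at h1
      exact CoordAux.valuation_lt_one_of_div_mem ((_root_.map_ne_zero _).2 h₀.ne_zero)
        (H.isMVert.lt_one 0) h1
    exact ⟨crossPow_of_trivial _ _ _ hB₁ fun b hb => key b (((H.mem_ch₁_iff b).1 hb).1 0),
      crossPow_of_trivial _ _ _ hB₂ fun b hb => key b (((H.mem_ch₂_iff b).1 hb).1 0)⟩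
  · have hγγ : ∀ f : FK K M, gam K γ₀ M (gam K γ₀ M (gam K (τ : K →+* K) M f)) = f := by
      intro f
      rw [gam_gam, gam_gam]
      have h2 : ((γ₀.comp γ₀).comp (τ : K →+* K)) = RingHom.id K := RingHom.ext fun a => h a
      rw [h2, gam_id]
    exact ⟨LQ.crossPow₁_of_frob H (gal τ (M * q)) (gam K (τ : K →+* K) M) (fun f => gal_al τ f)
        hγγ (fun r hr => gal_mem_chart hτA (gal_xK τ D) hr) hB₁
        (fun y hy => (gal_val_lt_one hτA hc 0 y).2 hy),
      LQ.crossPow₂_of_frob H (gal τ (M * q)) (gam K (τ : K →+* K) M) (fun f => gal_al τ f)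
        hγγ (fun r hr => gal_mem_chart hτA (by rw [map_inv₀, gal_xK]) hr) hB₂
        (fun y hy => (gal_val_lt_one hτA hc 0 y).2 hy)⟩

theorem mod_riemK_iter_ne_zero (N : ℕ) (τ : K ≃+* K) (u : FK K N) (hu0 : u ≠ 0) (i : ℕ) :
    (⇑(gal τ N))^[i] u ≠ 0 := by
  induction i with
  | zero => exact hu0
  | succ i ih =>
    rw [Function.iterate_succ_apply']
    exact (map_ne_zero_iff _ (gal τ N).injective).2 ih

theorem mod_riemK_iter_isKum (N n : ℕ) (τ : K ≃+* K) (s : GQ)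
    (hs : ∀ a, s (algebraMap K Kbar a) = algebraMap K Kbar (τ a)) (u : FK K N)
    (hu : IsKum N n (bcBar N u)) (i : ℕ) : IsKum N n (bcBar N ((⇑(gal τ N))^[i] u)) := by
  induction i with
  | zero => exact hu
  | succ i ih =>
    rw [Function.iterate_succ_apply', bcBar_gal N τ s hs]
    exact ih.galF s

/-- M7: Riemann's theorem for the monomials in the orbit. -/
theorem mod_riemK (D : BaseData M q) (hx : Transcendental K (xx (al K M q) (be K M q) (D.xK K)))
    (τ : K ≃+* K) (s : GQ) (hs : ∀ a, s (algebraMap K Kbar a) = algebraMap K Kbar (τ a))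
    (n : ℕ) (hn : 0 < n) (u : FK K (M * q)) (hu0 : u ≠ 0)
    (hu : IsKum (M * q) n (bcBar (M * q) u))
    (U : Finset (FK K (M * q))) (hU : ∀ y ∈ U, ∃ i : ℕ, y = (⇑(gal τ (M * q)))^[i] u)
    (e : FK K (M * q) → ℕ) :
    RiemK K (FK K (M * q)) (xx (al K M q) (be K M q) (D.xK K)) n (∏ y ∈ U, y ^ e y) := by
  refine riemK_of_isKum (M * q) _ hx n hn _ ?_ ?_
  · rw [Finset.prod_ne_zero_iff]
    intro y hy
    obtain ⟨i, rfl⟩ := hU y hy
    exact pow_ne_zero _ (mod_riemK_iter_ne_zero _ τ u hu0 i)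
  · rw [map_prod]
    refine Finset.prod_induction _ (IsKum (M * q) n) (fun a b ha hb => ha.mul hb)
      (isKum_one _ _) ?_
    intro y hy
    rw [map_pow]
    obtain ⟨i, rfl⟩ := hU y hy
    exact (mod_riemK_iter_isKum _ n τ s hs u hu i).pow _

/-- M8: the elements of the orbit are `n`-th powers in `K((q))`. -/
theorem mod_hUL (N : ℕ) (τ : K ≃+* K) (n : ℕ) (hn : 0 < n) (u : FK K N)
    (hu : IsKum N n (bcBar N u)) (hlead : ∃ d : K, d ^ n = (u : LaurentSeries K).leadingCoeff)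
    (i : ℕ) : ∃ z : LaurentSeries K, z ^ n = (((⇑(gal τ N))^[i] u : FK K N) : LaurentSeries K) := by
  have : CharZero K := algebraRat.charZero K
  induction i with
  | zero => exact exists_pow_eq_laurentSeries n hn _ (order_dvd_of_isKum N n u hu) hlead
  | succ i ih =>
    obtain ⟨z, hz⟩ := ih
    refine ⟨coeffMap (τ : K →+* K) z, ?_⟩
    rw [Function.iterate_succ_apply', coe_gal, ← hz, map_pow]

/-- **M9, tame form.** -/
theorem mod_tor_tame (h₀ : IsUnif A₀ ϖ₀) (hfin : Finite (IsLocalRing.ResidueField A₀))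
    (hq : q.Prime) (hqM : ¬ q ∣ M) (hchar : A₀.valuation (q : K) < 1) (hc : M.Coprime q)
    {γ₀ : K →+* K} (hγ : IsFrobInv A₀ q γ₀) (D : BaseData M q) (hD : BeInt D)
    (τ : K ≃+* K) (hτA : A₀.comap (τ : K →+* K) = A₀)
    (hτ : (∀ a ∈ A₀, A₀.valuation (τ a - a) < 1) ∨ (∀ a, γ₀ (γ₀ (τ a)) = a))
    (hfo : ∃ m, 0 < m ∧ ∀ a, (⇑τ)^[m] a = a)
    (s : GQ) (hs : ∀ a, s (algebraMap K Kbar a) = algebraMap K Kbar (τ a))
    (n : ℕ) (hn : A₀.valuation (n : K) = 1) (ζ : K) (hζ : IsPrimitiveRoot ζ n)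
    (ε : ℕ) (hε : τ ζ = ζ ^ ε)
    (u : FK K (M * q)) (hu : IsKum (M * q) n (bcBar (M * q) u))
    (hlead : ∃ d : K, d ^ n = (u : LaurentSeries K).leadingCoeff)
    (h1 : ∀ c, (VV A₀ hc c).valuation (u - 1) < 1) :
    ∃ f : FK K (M * q), gal τ (M * q) u = u ^ ε * f ^ n := by
  haveI : CharZero K := algebraRat.charZero K
  have H := lq h₀ hq hqM hchar hc hγ D hD
  have hn0 : 0 < n := by
    rcases Nat.eq_zero_or_pos n with rfl | h
    · rw [Nat.cast_zero, map_zero] at hn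
      exact absurd hn zero_ne_one
    · exact h
  have hu0 : u ≠ 0 := by
    rintro rfl
    have h2 := h1 0
    rw [zero_sub, Valuation.map_neg, map_one] at h2
    exact lt_irrefl _ h2
  obtain ⟨U, huU, hUg, hUi⟩ := exists_orbit (M * q) τ hfo u
  obtain ⟨hcr₁, hcr₂⟩ := mod_crossPow h₀ hq hqM hchar hc hγ D hD τ hτA hτ
  have hτA' : ∀ a, τ a ∈ A₀ ↔ a ∈ A₀ := by
    intro a
    have h2 : a ∈ A₀.comap (τ : K →+* K) ↔ (τ : K →+* K) a ∈ A₀ := ValuationSubring.mem_comap
    rw [hτA] at h2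
    exact h2.symm
  have hiter : ∀ (i : ℕ) (c : Fin 2),
      (VV A₀ hc c).valuation ((⇑(gal τ (M * q)))^[i] u - 1) < 1 := by
    intro i c
    induction i with
    | zero => exact h1 c
    | succ i ih =>
      rw [Function.iterate_succ_apply']
      have e : gal τ (M * q) ((⇑(gal τ (M * q)))^[i] u) - 1 =
          gal τ (M * q) ((⇑(gal τ (M * q)))^[i] u - 1) := by rw [map_sub, map_one]
      rw [e]
      exact (gal_val_lt_one hτA hc c _).2 ih
  exact LQ.tor_tame H hfin (L := LaurentSeries K) (FK K (M * q)).val.toRingHom (mod_hL (M * q)) n hn ζ hζ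
    (gal τ (M * q)) τ (gal_const τ _) hτA' (gal_xx τ D) (gal_mem_VV hτA hc) hcr₁ hcr₂ ε hε U hUg
    (fun y hy => by
      obtain ⟨i, rfl⟩ := hUi y hy
      exact mod_hUL (M * q) τ n hn0 u hu hlead i)
    (fun y hy c => by
      obtain ⟨i, rfl⟩ := hUi y hy
      exact hiter i c)
    (fun e => mod_riemK D (H.isMCoord 0).transcendental τ s hs n hn0 u hu0 hu U hUi e) u huU

/-- the deep congruence is stable under `gal τ`. -/
theorem mod_tor_deep_step (hc : M.Coprime q)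
    (hconst : ∀ c, ∀ a ∈ A₀, algebraMap K (FK K (M * q)) a ∈ VV A₀ hc c)
    (τ : K ≃+* K) (hτA : A₀.comap (τ : K →+* K) = A₀)
    (p : ℕ) (ζ : K) (hζA : ζ ∈ A₀) (ε : ℕ) (hε : τ ζ = ζ ^ ε) (c : Fin 2)
    (y : FK K (M * q))
    (h : ∃ z : FK K (M * q), (VV A₀ hc c).valuation z < 1 ∧
      y - 1 = algebraMap K (FK K (M * q)) (ζ - 1) ^ p * z) :
    ∃ z : FK K (M * q), (VV A₀ hc c).valuation z < 1 ∧
      gal τ (M * q) y - 1 = algebraMap K (FK K (M * q)) (ζ - 1) ^ p * z := by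
  obtain ⟨z, hz, hyz⟩ := h
  set t : K := ∑ j ∈ Finset.range ε, ζ ^ j with ht
  have htA : t ∈ A₀ := by
    rw [ht]
    exact sum_mem fun j _ => pow_mem hζA j
  have htV : algebraMap K (FK K (M * q)) t ∈ VV A₀ hc c := hconst c t htA
  refine ⟨algebraMap K (FK K (M * q)) t ^ p * gal τ (M * q) z, ?_, ?_⟩
  · rw [map_mul]
    refine lt_of_le_of_lt (mul_le_of_le_one_left' ?_) ((gal_val_lt_one hτA hc c z).2 hz)
    exact ((VV A₀ hc c).valuation_le_one_iff _).2 (pow_mem htV p)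
  · have e1 : gal τ (M * q) y - 1 = gal τ (M * q) (y - 1) := by rw [map_sub, map_one]
    have e2 : τ (ζ - 1) = (ζ - 1) * t := by
      rw [map_sub, map_one, hε, ht, mul_comm, geom_sum_mul]
    rw [e1, hyz, map_mul, map_pow, gal_const, e2, map_mul, mul_pow, mul_assoc]

/-- **M10, wild form** (`n = p`). -/
theorem mod_tor_deep (h₀ : IsUnif A₀ ϖ₀) (hfin : Finite (IsLocalRing.ResidueField A₀))
    (hq : q.Prime) (hqM : ¬ q ∣ M) (hchar : A₀.valuation (q : K) < 1) (hc : M.Coprime q)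
    {γ₀ : K →+* K} (hγ : IsFrobInv A₀ q γ₀) (D : BaseData M q) (hD : BeInt D)
    (τ : K ≃+* K) (hτA : A₀.comap (τ : K →+* K) = A₀)
    (hτ : (∀ a ∈ A₀, A₀.valuation (τ a - a) < 1) ∨ (∀ a, γ₀ (γ₀ (τ a)) = a))
    (hfo : ∃ m, 0 < m ∧ ∀ a, (⇑τ)^[m] a = a)
    (s : GQ) (hs : ∀ a, s (algebraMap K Kbar a) = algebraMap K Kbar (τ a))
    (p : ℕ) (hp : p.Prime) (ζ : K) (hζ : IsPrimitiveRoot ζ p)
    (ε : ℕ) (hε : τ ζ = ζ ^ ε)
    (u : FK K (M * q)) (hu : IsKum (M * q) p (bcBar (M * q) u))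
    (hlead : ∃ d : K, d ^ p = (u : LaurentSeries K).leadingCoeff)
    (h1 : ∀ c, ∃ z : FK K (M * q), (VV A₀ hc c).valuation z < 1 ∧
      u - 1 = algebraMap K (FK K (M * q)) (ζ - 1) ^ p * z) :
    ∃ f : FK K (M * q), gal τ (M * q) u = u ^ ε * f ^ p := by
  have : CharZero K := algebraRat.charZero K
  have H := lq h₀ hq hqM hchar hc hγ D hD
  have hζA : ζ ∈ A₀ := LQ.tor_tame_zeta_mem hp.ne_zero hζ.pow_eq_one
  have hconst := H.isMVert.const_mem
  have hu0 : u ≠ 0 := by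
    rintro rfl
    obtain ⟨z, hz, hz1⟩ := h1 0
    have hl : algebraMap K (FK K (M * q)) (ζ - 1) ∈ VV A₀ hc 0 :=
      hconst 0 _ (sub_mem hζA A₀.one_mem)
    have h2 : (VV A₀ hc 0).valuation (algebraMap K (FK K (M * q)) (ζ - 1) ^ p * z) < 1 := by
      rw [map_mul]
      exact lt_of_le_of_lt (mul_le_of_le_one_left'
        (((VV A₀ hc 0).valuation_le_one_iff _).2 (pow_mem hl p))) hz
    rw [← hz1, zero_sub, Valuation.map_neg, map_one] at h2
    exact lt_irrefl _ h2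
  obtain ⟨U, huU, hUg, hUi⟩ := exists_orbit (M * q) τ hfo u
  obtain ⟨hcr₁, hcr₂⟩ := mod_crossPow h₀ hq hqM hchar hc hγ D hD τ hτA hτ
  have hτA' : ∀ a, τ a ∈ A₀ ↔ a ∈ A₀ := by
    intro a
    conv_rhs => rw [← hτA]
    rw [ValuationSubring.mem_comap]
    rfl
  have hiter : ∀ (i : ℕ) (c : Fin 2), ∃ z : FK K (M * q), (VV A₀ hc c).valuation z < 1 ∧
      (⇑(gal τ (M * q)))^[i] u - 1 = algebraMap K (FK K (M * q)) (ζ - 1) ^ p * z := by
    intro i c
    induction i with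
    | zero => exact h1 c
    | succ i ih =>
      rw [Function.iterate_succ_apply']
      exact mod_tor_deep_step hc hconst τ hτA p ζ hζA ε hε c _ ih
  exact LQ.tor_deep H hfin (L := LaurentSeries K) (FK K (M * q)).val.toRingHom (mod_hL (M * q)) p hp ζ hζ
    (gal τ (M * q)) τ (gal_const τ _) hτA' (gal_xx τ D) (gal_mem_VV hτA hc) hcr₁ hcr₂ ε hε U hUg
    (fun y hy => by
      obtain ⟨i, rfl⟩ := hUi y hy
      exact mod_hUL (M * q) τ p hp.pos u hu hlead i)
    (fun y hy c => by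
      obtain ⟨i, rfl⟩ := hUi y hy
      exact hiter i c)
    (fun e => mod_riemK D (H.isMCoord 0).transcendental τ s hs p hp.pos u hu0 hu U hUi e) u huU

end Fermat.Agent.Nodal

end
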